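/-
Program H (S18), chapter RED/TOP, helper20: the characteristic-zero function-field facts about
`Fbar N = modularFunctionFieldBar N` over `ℚbar` that step (0) needs, extracted from the X0 library
(`Degree.isGen_jF`, `FF.*`): principal divisors exist (finite support, degree `0`), all places have
degree `1`, there is at least one place.
-/
import Fermat.Agent.X0.FFGenus
import Fermat.Agent.X0.Degree
import Fermat.Agent.X0.RealizeData
import Fermat.Agent.X0.CuspExpand

set_option autoImplicit false

open AlgebraicCurve ModularCurve

namespace Fermat.Agent.RED.TOP.FbarFacts20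

open Fermat.Agent.X0

variable (N : ℕ) [NeZero N]

/-- `j` is a transcendental generator of `Fbar N / ℚbar`. -/
theorem isGen_j : FF.IsGen Kbar (jF N) :=
  Degree.isGen_jF N (realizeData N) (cuspData N)

/-- Principal divisors of `Fbar N` exist (finite support) and have degree `0`. -/
theorem hasPrincipalDivisors_bar :
    HasPrincipalDivisors (AlgebraicClosure ℚ) ↥(modularFunctionFieldBar N) :=
  FFGenus.hasPrincipalDivisors (isGen_j N)

/-- Every place of `Fbar N / ℚbar` has degree `1`. -/
theorem deg_eq_one_bar (v : Place (AlgebraicClosure ℚ) ↥(modularFunctionFieldBar N)) :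
    v.deg = 1 :=
  FF.deg_eq_one (isGen_j N) v

/-- The divisor of a nonzero function, as a `Finsupp`, of degree `0`. -/
theorem exists_divisor_bar {f : ↥(modularFunctionFieldBar N)} (hf : f ≠ 0) :
    ∃ D : Divisor (AlgebraicClosure ℚ) ↥(modularFunctionFieldBar N),
      (∀ v, D v = v.ord f) ∧ Divisor.degree D = 0 :=
  (hasPrincipalDivisors_bar N).exists_divisor f hf

/-- `Fbar N` has at least one place (a pole of `j`). -/
theorem nonempty_place_bar :
    Nonempty (Place (AlgebraicClosure ℚ) ↥(modularFunctionFieldBar N)) := by
  by_contra hempty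
  rw [not_nonempty_iff] at hempty
  have h := FF.sum_ord_poles (isGen_j N)
  have h0 : (∑ᶠ (v : Place Kbar (FF N)) (_ : v.ord (jF N) < 0), -v.ord (jF N)) = 0 := by
    apply finsum_eq_zero_of_forall_eq_zero
    intro v
    exact (hempty.false v).elim
  rw [h0] at h
  have := (isGen_j N).finite
  have hpos : 0 < Module.finrank (IntermediateField.adjoin Kbar {jF N}) (FF N) :=
    Module.finrank_pos
  omega

end Fermat.Agent.RED.TOP.FbarFacts20
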