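/-
Program H (S18), chapter RED/TOP, helper20: step (0), the "constant" lemma WITHOUT any function-field
theory in characteristic `ℓ`.

If `P, Q ∈ A((q))` lie in `Fbar N` (after `A ⊂ L`), their reductions `P~, Q~` lie in
`F~ = modularFunctionFieldFullC k N`, `Q~ ≠ 0`, and `P~`, `Q~` have the same order at EVERY place of
`F~`, then `P~ = c~ · Q~` for a constant `c ∈ A`.  The proof uses only the reduction map `r` of the
frozen hypothesis (`IsPlaceReductionAlong`): pick a place `Q₀ = r P₀` (degree `1`), let `c~` be the
value of `u~ = P~/Q~` at `Q₀`; if `P~ ≠ c~ Q~` then `E := r_*(div (P - cQ) - div Q)` is an effective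
divisor of degree `0` supported on the image of `r` (degree-one places) with `E(Q₀) > 0`: absurd.
-/
import Mathlib
import Fermat.Prelude.Def_ModularCurve_ReductionModL
import Fermat.Agent.X0.FFPlace

set_option autoImplicit false

noncomputable section

open HahnSeries IntermediateField AlgebraicCurve ModularCurve

namespace Fermat.Agent.RED.TOP.ConstViaR20

open Fermat.Agent.X0.FF

/-! ### Generalities -/

section General

variable {K F : Type*} [Field K] [Field F] [Algebra K F]

/-- The degree of a divisor as a sum. -/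
theorem degree_eq_sum (D : Divisor K F) :
    Divisor.degree D = D.sum fun v n => n * (v.deg : ℤ) := by
  rw [Divisor.degree, Finsupp.liftAddHom_apply]
  rfl

/-- An effective divisor of degree `0` vanishes at every place of degree `1`. -/
theorem eq_zero_of_nonneg_of_degree_eq_zero (E : Divisor K F) (hE : ∀ v, 0 ≤ E v)
    (hdeg : Divisor.degree E = 0) (v₀ : Place K F) (hv₀ : v₀.deg = 1) : E v₀ = 0 := by
  rw [degree_eq_sum, Finsupp.sum] at hdeg
  by_cases hmem : v₀ ∈ E.support
  · have h := (Finset.sum_eq_zero_iff_of_nonneg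
      (fun v _ => mul_nonneg (hE v) (Int.natCast_nonneg _))).mp hdeg v₀ hmem
    rw [hv₀] at h
    simpa using h
  · simpa [Finsupp.mem_support_iff] using hmem

/-- At a place of degree `1`, every element of the valuation ring is congruent to a constant. -/
theorem exists_const_of_deg_eq_one (v : Place K F) (hv : v.deg = 1) {f : F}
    (hf : f ∈ v.toValuationSubring) :
    ∃ c : K, f = algebraMap K F c ∨ 0 < v.ord (f - algebraMap K F c) := by
  have h1 : ∀ w : v.ResidueField, ∃ c : K, c • (1 : v.ResidueField) = w :=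
    (finrank_eq_one_iff_of_nonzero' (1 : v.ResidueField) one_ne_zero).mp hv
  obtain ⟨c, hc⟩ := h1 (IsLocalRing.residue v.toValuationSubring ⟨f, hf⟩)
  refine ⟨c, ?_⟩
  by_cases hfc : f = algebraMap K F c
  · exact Or.inl hfc
  right
  set a : v.toValuationSubring := ⟨f, hf⟩ - algebraMap K v.toValuationSubring c with ha
  have ha0 : a ≠ 0 := by
    intro h0
    apply hfc
    have := congrArg (Subtype.val) h0
    rw [ha] at this
    simpa [sub_eq_zero] using this
  have hres : IsLocalRing.residue v.toValuationSubring a = 0 := by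
    rw [ha, map_sub, ← hc, Algebra.smul_def, mul_one]
    exact sub_self _
  have hmem : a ∈ IsLocalRing.maximalIdeal v.toValuationSubring :=
    (IsLocalRing.residue_eq_zero_iff a).mp hres
  have := (ffp_mem_maximalIdeal_iff v a ha0).mp hmem
  simpa [ha] using this

/-- Push-forward of divisors along a degree-preserving map of places preserves degrees. -/
theorem degree_mapDomain {k F' : Type*} [Field k] [Field F'] [Algebra k F']
    (r : Place K F → Place k F') (hdegr : ∀ P, (r P).deg = P.deg) (D : Divisor K F) :
    Divisor.degree (Finsupp.mapDomain r D) = Divisor.degree D := by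
  induction D using Finsupp.induction with
  | zero => simp
  | single_add P n D _ _ ih =>
    rw [Finsupp.mapDomain_add, map_add, map_add, ih, Finsupp.mapDomain_single,
      Divisor.degree_single, Divisor.degree_single, hdegr]

/-- **Abstract form of the constant lemma.**  `u'` lies in every valuation ring downstairs; whenever
`u' ≠ c'` the divisors of `q' (u' - c')` and of `q'` are push-forwards of degree-zero divisors from
upstairs (where all places have degree one).  Then `u'` is a constant. -/
theorem exists_const_abstract {k F' : Type*} [Field k] [Field F'] [Algebra k F']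
    (r : Place K F → Place k F') (hdegr : ∀ P, (r P).deg = P.deg)
    (hdeg1 : ∀ P : Place K F, P.deg = 1) (hne : Nonempty (Place K F))
    (q' u' : F') (hq' : q' ≠ 0) (hu : ∀ Q' : Place k F', u' ∈ Q'.toValuationSubring)
    (htr : ∀ c' : k, u' ≠ algebraMap k F' c' → ∃ Dy DQ : Divisor K F,
      Divisor.degree Dy = 0 ∧ Divisor.degree DQ = 0 ∧
      (∀ Q' : Place k F', Finsupp.mapDomain r Dy Q' = Q'.ord (q' * (u' - algebraMap k F' c'))) ∧
      (∀ Q' : Place k F', Finsupp.mapDomain r DQ Q' = Q'.ord q')) :
    ∃ c' : k, u' = algebraMap k F' c' := by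
  classical
  obtain ⟨P₀⟩ := hne
  have hQ₀deg : (r P₀).deg = 1 := (hdegr P₀).trans (hdeg1 P₀)
  obtain ⟨c', hc'⟩ := exists_const_of_deg_eq_one (r P₀) hQ₀deg (hu (r P₀))
  refine ⟨c', ?_⟩
  by_contra hu_ne
  have hpos : 0 < (r P₀).ord (u' - algebraMap k F' c') := hc'.resolve_left hu_ne
  obtain ⟨Dy, DQ, hDy0, hDQ0, hEy, hEQ⟩ := htr c' hu_ne
  have hEval : ∀ Q' : Place k F',
      (Finsupp.mapDomain r Dy - Finsupp.mapDomain r DQ) Q' =
        Q'.ord (u' - algebraMap k F' c') := by
    intro Q'
    rw [Finsupp.sub_apply, hEy Q', hEQ Q', Q'.ord_mul hq' (sub_ne_zero.mpr hu_ne)]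
    ring
  have hEnonneg : ∀ Q' : Place k F',
      0 ≤ (Finsupp.mapDomain r Dy - Finsupp.mapDomain r DQ) Q' := by
    intro Q'
    rw [hEval Q']
    exact ffp_ord_nonneg_of_mem Q' (sub_mem (hu Q') (Q'.algebraMap_mem' _))
  have hEdeg : Divisor.degree (Finsupp.mapDomain r Dy - Finsupp.mapDomain r DQ) = 0 := by
    rw [map_sub, degree_mapDomain r hdegr, degree_mapDomain r hdegr, hDy0, hDQ0, sub_zero]
  have := eq_zero_of_nonneg_of_degree_eq_zero _ hEnonneg hEdeg (r P₀) hQ₀deg
  rw [hEval] at this
  omega

end General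

/-! ### Laurent series bookkeeping -/

section Laurent

variable {R S : Type*} [CommRing R] [CommRing S]

theorem coeffMap_C (f : R →+* S) (c : R) :
    coeffMap f (HahnSeries.C c) = HahnSeries.C (f c) := by
  rw [HahnSeries.C_apply, HahnSeries.C_apply, coeffMap_single]

theorem coeffMap_ne_zero_of_injective {f : R →+* S} (hf : Function.Injective f)
    {x : LaurentSeries R} (hx : x ≠ 0) : coeffMap f x ≠ 0 := by
  intro h
  apply hx
  ext n
  have := congrArg (fun y => y.coeff n) h
  simp only [coeffMap_coeff, HahnSeries.coeff_zero] at this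
  rw [HahnSeries.coeff_zero]
  exact hf (by rw [this, map_zero])

theorem ne_zero_of_coeffMap_ne_zero {f : R →+* S} {x : LaurentSeries R}
    (hx : coeffMap f x ≠ 0) : x ≠ 0 := by
  rintro rfl
  exact hx (map_zero _)

end Laurent

/-! ### The lemma -/

variable {L : Type*} [Field L] [Algebra ℚ L] {A : ValuationSubring L}
variable {k : Type*} [Field k] {π : A →+* k} {N : ℕ}
variable {r : Place L (laurentBaseChange L (modularFunctionFieldFull N)) →
  Place k (modularFunctionFieldFullC k N)}

theorem C_mem_bar (c : L) :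
    (HahnSeries.C c : LaurentSeries L) ∈ laurentBaseChange L (modularFunctionFieldFull N) := by
  have h := (laurentBaseChange L (modularFunctionFieldFull N)).algebraMap_mem c
  rwa [algebraMap_laurentSeries_eq_single] at h

theorem C_mem_fullC (c : k) :
    (HahnSeries.C c : LaurentSeries k) ∈ modularFunctionFieldFullC k N := by
  have h := (modularFunctionFieldFullC k N).algebraMap_mem c
  rwa [algebraMap_laurentSeries_eq_single] at h

theorem coe_algebraMap_fullC (c : k) :
    ((algebraMap k (modularFunctionFieldFullC k N) c : modularFunctionFieldFullC k N) :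
      LaurentSeries k) = HahnSeries.C c := by
  show algebraMap k (LaurentSeries k) c = _
  rw [algebraMap_laurentSeries_eq_single, HahnSeries.C_apply]

/-- **Step (0), constant lemma.**  -/
theorem exists_const_of_ord_eq
    (hπ : Function.Surjective π)
    (hdiv : HasPrincipalDivisors L ↥(laurentBaseChange L (modularFunctionFieldFull N)))
    (hdeg1 : ∀ P : Place L (laurentBaseChange L (modularFunctionFieldFull N)), P.deg = 1)
    (hne : Nonempty (Place L (laurentBaseChange L (modularFunctionFieldFull N))))
    (hr : IsPlaceReductionAlong A π N r)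
    (P Q : LaurentSeries A)
    (hP : coeffMap A.subtype P ∈ laurentBaseChange L (modularFunctionFieldFull N))
    (hQ : coeffMap A.subtype Q ∈ laurentBaseChange L (modularFunctionFieldFull N))
    (hPk : coeffMap π P ∈ modularFunctionFieldFullC k N)
    (hQk : coeffMap π Q ∈ modularFunctionFieldFullC k N)
    (hQ0 : coeffMap π Q ≠ 0)
    (hord : ∀ Q' : Place k (modularFunctionFieldFullC k N),
      Q'.ord (⟨coeffMap π P, hPk⟩ : modularFunctionFieldFullC k N) =
        Q'.ord (⟨coeffMap π Q, hQk⟩ : modularFunctionFieldFullC k N)) :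
    ∃ c : A, coeffMap π P = coeffMap π (HahnSeries.C c * Q) := by
  classical
  obtain ⟨p', hp'⟩ : ∃ p' : modularFunctionFieldFullC k N, p' = ⟨coeffMap π P, hPk⟩ := ⟨_, rfl⟩
  obtain ⟨q', hq'⟩ : ∃ q' : modularFunctionFieldFullC k N, q' = ⟨coeffMap π Q, hQk⟩ := ⟨_, rfl⟩
  rw [← hp', ← hq'] at hord
  have hp'v : (p' : LaurentSeries k) = coeffMap π P := by rw [hp']
  have hq'v : (q' : LaurentSeries k) = coeffMap π Q := by rw [hq']
  have hq'0 : q' ≠ 0 := by
    intro h
    apply hQ0
    rw [← hq'v, h]
    rfl
  -- `u = p'/q'` lies in every valuation ring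
  have hu_mem : ∀ Q' : Place k (modularFunctionFieldFullC k N),
      p' / q' ∈ Q'.toValuationSubring := by
    intro Q'
    rw [ffp_mem_iff_ord_nonneg]
    rcases eq_or_ne p' 0 with h0 | h0
    · rw [h0, zero_div]; simp
    · rw [div_eq_mul_inv, Q'.ord_mul h0 (inv_ne_zero hq'0), Q'.ord_inv, hord Q']
      simp
  have hQL0 : (⟨coeffMap A.subtype Q, hQ⟩ :
      laurentBaseChange L (modularFunctionFieldFull N)) ≠ 0 := by
    intro h0
    exact coeffMap_ne_zero_of_injective A.subtype_injective
      (ne_zero_of_coeffMap_ne_zero hQ0) (congrArg Subtype.val h0)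
  obtain ⟨DQ, hDQ, hDQ0⟩ := hdiv.exists_divisor _ hQL0
  have hEQ : ∀ Q' : Place k (modularFunctionFieldFullC k N),
      Finsupp.mapDomain r DQ Q' = Q'.ord q' := by
    intro Q'
    rw [hq']
    exact hr.2 Q hQ hQk hQ0 DQ hDQ Q'
  obtain ⟨c', hc'⟩ := exists_const_abstract r hr.1 hdeg1 hne q' (p' / q') hq'0 hu_mem (by
    intro c' hu_ne
    obtain ⟨c, rfl⟩ := hπ c'
    -- the auxiliary function `y = P - c Q`
    have hyL : coeffMap A.subtype (P - HahnSeries.C c * Q) ∈
        laurentBaseChange L (modularFunctionFieldFull N) := by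
      rw [map_sub, map_mul, coeffMap_C]
      exact sub_mem hP (mul_mem (C_mem_bar _) hQ)
    have hyk : coeffMap π (P - HahnSeries.C c * Q) ∈ modularFunctionFieldFullC k N := by
      rw [map_sub, map_mul, coeffMap_C]
      exact sub_mem hPk (mul_mem (C_mem_fullC _) hQk)
    have hyk_eq : (⟨coeffMap π (P - HahnSeries.C c * Q), hyk⟩ : modularFunctionFieldFullC k N) =
        q' * (p' / q' - algebraMap k (modularFunctionFieldFullC k N) (π c)) := by
      apply Subtype.ext
      have h1 : q' * (p' / q' - algebraMap k (modularFunctionFieldFullC k N) (π c)) =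
          p' - algebraMap k (modularFunctionFieldFullC k N) (π c) * q' := by
        field_simp
      rw [h1]
      show coeffMap π (P - HahnSeries.C c * Q) = (p' : LaurentSeries k) -
        ((algebraMap k (modularFunctionFieldFullC k N) (π c) :
          modularFunctionFieldFullC k N) : LaurentSeries k) * (q' : LaurentSeries k)
      rw [coe_algebraMap_fullC, hp'v, hq'v, map_sub, map_mul, coeffMap_C]
    have hyk0 : coeffMap π (P - HahnSeries.C c * Q) ≠ 0 := by
      intro h0
      have : (⟨coeffMap π (P - HahnSeries.C c * Q), hyk⟩ : modularFunctionFieldFullC k N) = 0 :=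
        Subtype.ext h0
      rw [hyk_eq] at this
      rcases mul_eq_zero.mp this with h | h
      · exact hq'0 h
      · exact hu_ne (sub_eq_zero.mp h)
    have hyL0 : (⟨coeffMap A.subtype (P - HahnSeries.C c * Q), hyL⟩ :
        laurentBaseChange L (modularFunctionFieldFull N)) ≠ 0 := by
      intro h0
      exact coeffMap_ne_zero_of_injective A.subtype_injective
        (ne_zero_of_coeffMap_ne_zero hyk0) (congrArg Subtype.val h0)
    obtain ⟨Dy, hDy, hDy0⟩ := hdiv.exists_divisor _ hyL0
    refine ⟨Dy, DQ, hDy0, hDQ0, ?_, hEQ⟩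
    intro Q'
    rw [← hyk_eq]
    exact hr.2 _ hyL hyk hyk0 Dy hDy Q')
  obtain ⟨c, rfl⟩ := hπ c'
  refine ⟨c, ?_⟩
  rw [map_mul, coeffMap_C, ← hp'v, ← hq'v, ← coe_algebraMap_fullC (N := N) (π c)]
  have h2 : p' = algebraMap k (modularFunctionFieldFullC k N) (π c) * q' := by
    rw [← hc', div_mul_cancel₀ _ hq'0]
  exact congrArg Subtype.val h2

end Fermat.Agent.RED.TOP.ConstViaR20
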