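/-
Program H (S18), chapter TOP, leaf (T3 = AUX-lift), helper2.

Every nonzero element `g` of `modularFunctionFieldFullC k N = k(x_d : d ∣ N) ⊂ k((q))` is a ratio
`coeffMap π G₁ / coeffMap π G₂` with `G₁ G₂ ∈ A[x_d : d ∣ N] ⊂ A((q))`, for any valuation subring
`A` of a field `L ⊇ ℚ` and any surjective ring hom `π : A →+* k`.  The lifts `G_i` become elements
of `laurentBaseChange L (modularFunctionFieldFull N)` after `coeffMap A.subtype`, their reductions
lie in `modularFunctionFieldFullC k N` and are nonzero.
-/
import Mathlib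
import Fermat.Prelude.Def_ModularCurve_ReductionModL

set_option autoImplicit false

noncomputable section

open HahnSeries IntermediateField

namespace Fermat.Agent.RED.TOP.LiftRatio2

open ModularCurve

section General

variable {L : Type*} [Field L] [Algebra ℚ L] (A : ValuationSubring L)
variable {k : Type*} [Field k] (π : A →+* k) (N : ℕ)

/-- the level `d` of a generator `s ∈ divisorExpansionsC k N`. -/
def lev (s : divisorExpansionsC k N) : ℕ := s.2.choose

instance lev_neZero (s : divisorExpansionsC k N) : NeZero (lev (k := k) N s) :=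
  s.2.choose_spec.choose

theorem lev_dvd (s : divisorExpansionsC k N) : lev (k := k) N s ∣ N :=
  s.2.choose_spec.choose_spec.1

theorem lev_spec (s : divisorExpansionsC k N) :
    (s : LaurentSeries k) = qExpand k (lev (k := k) N s) (jqModC k) :=
  s.2.choose_spec.choose_spec.2

/-- the evaluation `A[X_s] → A((q))`, `X_s ↦ j(q^{d_s})`. -/
def Phi : MvPolynomial (divisorExpansionsC k N) A →+* LaurentSeries A :=
  MvPolynomial.eval₂Hom (HahnSeries.C : A →+* LaurentSeries A)
    (fun s => qExpand A (lev (k := k) N s) (jqModC A))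

theorem coeffMap_C {R S : Type*} [CommRing R] [CommRing S] (f : R →+* S) (a : R) :
    coeffMap f (HahnSeries.C a : LaurentSeries R) = HahnSeries.C (f a) := by
  exact coeffMap_single f 0 a

theorem C_eq_algebraMap (c : k) :
    (HahnSeries.C c : LaurentSeries k) = algebraMap k (LaurentSeries k) c := by
  rw [algebraMap_laurentSeries_eq_single]
  rfl

omit [Algebra ℚ L] in
/-- reduction of `Phi` is evaluation of the reduced polynomial at the generators. -/
theorem coeffMap_Phi (R : MvPolynomial (divisorExpansionsC k N) A) :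
    coeffMap π (Phi A N R) =
      MvPolynomial.aeval (Subtype.val : divisorExpansionsC k N → LaurentSeries k)
        (MvPolynomial.map π R) := by
  induction R using MvPolynomial.induction_on with
  | C a =>
    rw [Phi, MvPolynomial.coe_eval₂Hom, MvPolynomial.eval₂_C, MvPolynomial.map_C,
      MvPolynomial.aeval_C, coeffMap_C, C_eq_algebraMap]
  | add p q hp hq => rw [map_add, map_add, hp, hq, map_add, map_add]
  | mul_X p s hp =>
    rw [map_mul, map_mul, hp, map_mul, map_mul, MvPolynomial.map_X, MvPolynomial.aeval_X]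
    congr 1
    rw [Phi, MvPolynomial.coe_eval₂Hom, MvPolynomial.eval₂_X, coeffMap_qExpand, coeffMap_jqModC,
      ← lev_spec]

omit [Algebra ℚ L] in
theorem coeffMap_Phi_mem (R : MvPolynomial (divisorExpansionsC k N) A) :
    coeffMap π (Phi A N R) ∈ modularFunctionFieldFullC k N := by
  rw [coeffMap_Phi]
  have h : MvPolynomial.aeval (Subtype.val : divisorExpansionsC k N → LaurentSeries k)
      (MvPolynomial.map π R) ∈ Algebra.adjoin k (divisorExpansionsC k N) := by
    have := Algebra.adjoin_range_eq_range_aeval k
      (Subtype.val : divisorExpansionsC k N → LaurentSeries k)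
    rw [Subtype.range_coe] at this
    rw [this]
    exact ⟨_, rfl⟩
  exact IntermediateField.algebra_adjoin_le_adjoin k _ h

/-- the generic fibre of `Phi R` lies in the base-changed rational function field. -/
theorem coeffMap_subtype_Phi_mem (R : MvPolynomial (divisorExpansionsC k N) A) :
    coeffMap A.subtype (Phi A N R) ∈ laurentBaseChange L (modularFunctionFieldFull N) := by
  induction R using MvPolynomial.induction_on with
  | C a =>
    rw [Phi, MvPolynomial.coe_eval₂Hom, MvPolynomial.eval₂_C, coeffMap_C, C_eq_algebraMap]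
    exact (laurentBaseChange L (modularFunctionFieldFull N)).algebraMap_mem _
  | add p q hp hq => rw [map_add, map_add]; exact add_mem hp hq
  | mul_X p s hp =>
    rw [map_mul, map_mul]
    refine mul_mem hp ?_
    rw [Phi, MvPolynomial.coe_eval₂Hom, MvPolynomial.eval₂_X, coeffMap_qExpand, coeffMap_jqModC]
    have h1 : qExpand L (lev (k := k) N s) (jqModC L) =
        coeffEmb L (qExpand ℚ (lev (k := k) N s) jq) := by
      rw [coeffEmb, coeffMap_qExpand, ← jqModC_rat, coeffMap_jqModC]
    rw [h1]
    exact coeffEmb_mem_laurentBaseChange L (jqd_mem_full N (lev_dvd N s))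

/-- **(T3 = AUX-lift)**: every nonzero element of `k(x_d : d ∣ N)` is the ratio of the reductions of
two elements of `A[x_d : d ∣ N]`. -/
theorem exists_lift_ratio (hπ : Function.Surjective π) (g : LaurentSeries k)
    (hg : g ∈ modularFunctionFieldFullC k N) (hg0 : g ≠ 0) :
    ∃ G₁ G₂ : LaurentSeries A,
      coeffMap A.subtype G₁ ∈ laurentBaseChange L (modularFunctionFieldFull N) ∧
      coeffMap A.subtype G₂ ∈ laurentBaseChange L (modularFunctionFieldFull N) ∧
      coeffMap π G₁ ∈ modularFunctionFieldFullC k N ∧
      coeffMap π G₂ ∈ modularFunctionFieldFullC k N ∧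
      coeffMap π G₁ ≠ 0 ∧ coeffMap π G₂ ≠ 0 ∧
      g = coeffMap π G₁ / coeffMap π G₂ := by
  rw [modularFunctionFieldFullC, IntermediateField.mem_adjoin_iff] at hg
  obtain ⟨r, s, hrs⟩ := hg
  obtain ⟨R, rfl⟩ := MvPolynomial.map_surjective π hπ r
  obtain ⟨S, rfl⟩ := MvPolynomial.map_surjective π hπ s
  rw [← coeffMap_Phi A π N R, ← coeffMap_Phi A π N S] at hrs
  refine ⟨Phi A N R, Phi A N S, coeffMap_subtype_Phi_mem A N R, coeffMap_subtype_Phi_mem A N S,
    coeffMap_Phi_mem A π N R, coeffMap_Phi_mem A π N S, ?_, ?_, hrs⟩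
  · intro h0
    rw [h0, zero_div] at hrs
    exact hg0 hrs
  · intro h0
    rw [h0, div_zero] at hrs
    exact hg0 hrs

end General

section ModL

/-- the form used for S18: `A` a valuation subring of `Qbar`, `k` its residue field. -/
theorem exists_lift_ratio_modL (A : ValuationSubring (AlgebraicClosure ℚ)) (N : ℕ)
    (g : LaurentSeries (IsLocalRing.ResidueField A))
    (hg : g ∈ modularFunctionFieldFullC (IsLocalRing.ResidueField A) N) (hg0 : g ≠ 0) :
    ∃ G₁ G₂ : LaurentSeries A,
      coeffMap A.subtype G₁ ∈ modularFunctionFieldBar N ∧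
      coeffMap A.subtype G₂ ∈ modularFunctionFieldBar N ∧
      coeffMap (IsLocalRing.residue A) G₁ ∈
        modularFunctionFieldFullC (IsLocalRing.ResidueField A) N ∧
      coeffMap (IsLocalRing.residue A) G₂ ∈
        modularFunctionFieldFullC (IsLocalRing.ResidueField A) N ∧
      coeffMap (IsLocalRing.residue A) G₁ ≠ 0 ∧ coeffMap (IsLocalRing.residue A) G₂ ≠ 0 ∧
      g = coeffMap (IsLocalRing.residue A) G₁ / coeffMap (IsLocalRing.residue A) G₂ :=
  exists_lift_ratio A (IsLocalRing.residue A) N IsLocalRing.residue_surjective g hg hg0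

end ModL

end Fermat.Agent.RED.TOP.LiftRatio2

end
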