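/-
Program H (S18), chapter RED/TOP, helper20: step (0) complete — the frozen statement S18 from the
core lemma `(CL)_N`.

`CL N ℓ` (the contract, blueprint §0, with the harmless extra hypothesis that the common reduction lies
in `F~_N`): for every valuation subring `A` of `ℚbar` over `ℓ`, `P, Q ∈ A((q)) ∩ Fbar_N` with
`P~ = Q~ ≠ 0`, `ℓ ∤ m` and a divisor `D` of `Fbar_N` with `m·D = div (P/Q)`: `D` is principal.

`s18_of_CL : CL N ℓ → (frozen S18 for N, ℓ)`.  Uses `ConstViaR20.exists_const_of_ord_eq` (constants via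
the reduction map), `LiftRatio2.exists_lift_ratio_modL` (helper2) and `FbarFacts20` (X0 library).
-/
import Mathlib
import Fermat.Prelude.Def_ModularCurve_ReductionModL
import Fermat.Prelude.Def_EllipticCurve_FrobeniusTrace
import Fermat.Agent.RED.TOP.FbarFacts20
import Fermat.Agent.RED.TOP.ConstViaR20
import Fermat.Agent.RED.TOP.LiftRatio2

set_option autoImplicit false
set_option synthInstance.maxHeartbeats 400000
set_option linter.unusedSectionVars false

noncomputable section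

open HahnSeries IntermediateField AlgebraicCurve ModularCurve

namespace Fermat.Agent.RED.TOP.S18Top20

open Fermat.Agent.X0.FF Fermat.Agent.RED.TOP.ConstViaR20

/-- **The core lemma `(CL)_N`** as a `Prop` (contract of Program H). -/
def CL (N ℓ : ℕ) : Prop :=
  ∀ (A : ValuationSubring (AlgebraicClosure ℚ)), A.LiesOverPrime ℓ →
  ∀ (P Q : LaurentSeries A) (hP : coeffMap A.subtype P ∈ modularFunctionFieldBar N)
    (hQ : coeffMap A.subtype Q ∈ modularFunctionFieldBar N),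
    coeffMap (IsLocalRing.residue A) P = coeffMap (IsLocalRing.residue A) Q →
    coeffMap (IsLocalRing.residue A) Q ≠ 0 →
    coeffMap (IsLocalRing.residue A) Q ∈ modularFunctionFieldFullC (IsLocalRing.ResidueField A) N →
  ∀ (m : ℕ), ¬ ℓ ∣ m → ∀ D : Divisor (AlgebraicClosure ℚ) (modularFunctionFieldBar N),
    (∀ w : Place (AlgebraicClosure ℚ) (modularFunctionFieldBar N),
      (m : ℤ) * D w = w.ord ((⟨_, hP⟩ : modularFunctionFieldBar N) / ⟨_, hQ⟩)) →
    D ∈ Divisor.principal (K := AlgebraicClosure ℚ) (F := modularFunctionFieldBar N)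

/-! ### Representing principal divisors by integral functions -/

section Along

variable {L : Type*} [Field L] [Algebra ℚ L] (A : ValuationSubring L)
variable {k : Type*} [Field k] (π : A →+* k) (N : ℕ)

/-- `E = div Y₁ - div Y₂` with `Y₁, Y₂` integral with nonzero reductions in `F~_N`. -/
def GoodRep (E : Divisor L (laurentBaseChange L (modularFunctionFieldFull N))) : Prop :=
  ∃ (Y₁ Y₂ : LaurentSeries A)
    (h₁ : coeffMap A.subtype Y₁ ∈ laurentBaseChange L (modularFunctionFieldFull N))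
    (h₂ : coeffMap A.subtype Y₂ ∈ laurentBaseChange L (modularFunctionFieldFull N)),
    coeffMap π Y₁ ∈ modularFunctionFieldFullC k N ∧ coeffMap π Y₂ ∈ modularFunctionFieldFullC k N ∧
    coeffMap π Y₁ ≠ 0 ∧ coeffMap π Y₂ ≠ 0 ∧
    ∀ P : Place L (laurentBaseChange L (modularFunctionFieldFull N)),
      E P = P.ord (⟨_, h₁⟩ : laurentBaseChange L (modularFunctionFieldFull N)) -
        P.ord (⟨_, h₂⟩ : laurentBaseChange L (modularFunctionFieldFull N))

variable {A π N}

theorem bar_ne_zero {y : LaurentSeries A}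
    (hy : coeffMap A.subtype y ∈ laurentBaseChange L (modularFunctionFieldFull N))
    (hy0 : coeffMap π y ≠ 0) :
    (⟨_, hy⟩ : laurentBaseChange L (modularFunctionFieldFull N)) ≠ 0 := by
  intro h0
  exact coeffMap_ne_zero_of_injective A.subtype_injective
    (ne_zero_of_coeffMap_ne_zero hy0) (congrArg Subtype.val h0)

theorem ord_bar_mul (P : Place L (laurentBaseChange L (modularFunctionFieldFull N)))
    {y z : LaurentSeries A}
    (hy : coeffMap A.subtype y ∈ laurentBaseChange L (modularFunctionFieldFull N))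
    (hz : coeffMap A.subtype z ∈ laurentBaseChange L (modularFunctionFieldFull N))
    (hyz : coeffMap A.subtype (y * z) ∈ laurentBaseChange L (modularFunctionFieldFull N))
    (hy0 : coeffMap π y ≠ 0) (hz0 : coeffMap π z ≠ 0) :
    P.ord (⟨_, hyz⟩ : laurentBaseChange L (modularFunctionFieldFull N)) =
      P.ord (⟨_, hy⟩ : laurentBaseChange L (modularFunctionFieldFull N)) +
        P.ord (⟨_, hz⟩ : laurentBaseChange L (modularFunctionFieldFull N)) := by
  rw [← P.ord_mul (bar_ne_zero hy hy0) (bar_ne_zero hz hz0)]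
  congr 1
  exact Subtype.ext (map_mul _ _ _)

theorem one_mem_bar :
    coeffMap A.subtype (1 : LaurentSeries A) ∈
      laurentBaseChange L (modularFunctionFieldFull N) := by
  rw [map_one]; exact one_mem _

theorem goodRep_of_mem_closure
    {E : Divisor L (laurentBaseChange L (modularFunctionFieldFull N))}
    (hE : E ∈ AddSubgroup.closure (integralPrincipalDivisors A π N)) : GoodRep A π N E := by
  induction hE using AddSubgroup.closure_induction with
  | mem E hE =>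
    obtain ⟨y, hy, hyk, hy0, hEy⟩ := hE
    refine ⟨y, 1, hy, one_mem_bar, hyk, ?_, hy0, ?_, ?_⟩
    · rw [map_one]; exact one_mem _
    · rw [map_one]; exact one_ne_zero
    · intro P
      rw [hEy P]
      have h1 : (⟨_, one_mem_bar⟩ : laurentBaseChange L (modularFunctionFieldFull N)) = 1 :=
        Subtype.ext (map_one (coeffMap A.subtype))
      rw [h1, P.ord_one, sub_zero]
  | zero =>
    refine ⟨1, 1, one_mem_bar, one_mem_bar, ?_, ?_, ?_, ?_, ?_⟩
    · rw [map_one]; exact one_mem _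
    · rw [map_one]; exact one_mem _
    · rw [map_one]; exact one_ne_zero
    · rw [map_one]; exact one_ne_zero
    · intro P; simp
  | add E E' _ _ hE hE' =>
    obtain ⟨Y₁, Y₂, h₁, h₂, hk₁, hk₂, h0₁, h0₂, hord⟩ := hE
    obtain ⟨Z₁, Z₂, g₁, g₂, gk₁, gk₂, g0₁, g0₂, gord⟩ := hE'
    have m₁ : coeffMap A.subtype (Y₁ * Z₁) ∈ laurentBaseChange L (modularFunctionFieldFull N) := by
      rw [map_mul]; exact mul_mem h₁ g₁
    have m₂ : coeffMap A.subtype (Y₂ * Z₂) ∈ laurentBaseChange L (modularFunctionFieldFull N) := by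
      rw [map_mul]; exact mul_mem h₂ g₂
    refine ⟨Y₁ * Z₁, Y₂ * Z₂, m₁, m₂, ?_, ?_, ?_, ?_, ?_⟩
    · rw [map_mul]; exact mul_mem hk₁ gk₁
    · rw [map_mul]; exact mul_mem hk₂ gk₂
    · rw [map_mul]; exact mul_ne_zero h0₁ g0₁
    · rw [map_mul]; exact mul_ne_zero h0₂ g0₂
    · intro P
      rw [Finsupp.add_apply, hord P, gord P, ord_bar_mul P h₁ g₁ m₁ h0₁ g0₁,
        ord_bar_mul P h₂ g₂ m₂ h0₂ g0₂]
      ring
  | neg E _ hE =>
    obtain ⟨Y₁, Y₂, h₁, h₂, hk₁, hk₂, h0₁, h0₂, hord⟩ := hE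
    refine ⟨Y₂, Y₁, h₂, h₁, hk₂, hk₁, h0₂, h0₁, ?_⟩
    intro P
    rw [Finsupp.neg_apply, hord P]
    ring

end Along

/-! ### The main theorem -/

section Main

variable (N : ℕ) [NeZero N]

local notation "Qbar" => AlgebraicClosure ℚ
local notation "Fbar" => modularFunctionFieldBar N

/-- powers of integral elements -/
theorem pow_mem_bar {A : ValuationSubring Qbar} {y : LaurentSeries A}
    (hy : coeffMap A.subtype y ∈ Fbar) (n : ℕ) : coeffMap A.subtype (y ^ n) ∈ Fbar := by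
  rw [map_pow]; exact pow_mem hy n

theorem ord_bar_pow {A : ValuationSubring Qbar}
    (P : Place Qbar Fbar) {y : LaurentSeries A}
    (hy : coeffMap A.subtype y ∈ Fbar) (n : ℕ) :
    P.ord (⟨_, pow_mem_bar N hy n⟩ : Fbar) = n * P.ord (⟨_, hy⟩ : Fbar) := by
  have h : (⟨_, pow_mem_bar N hy n⟩ : Fbar) = (⟨_, hy⟩ : Fbar) ^ (n : ℤ) := by
    rw [zpow_natCast]
    exact Subtype.ext (map_pow _ _ _)
  rw [h, P.ord_zpow]

/-- **S18 from (CL).** -/
theorem s18_of_CL {ℓ : ℕ} [Fact ℓ.Prime] (hCL : CL N ℓ)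
    (A : ValuationSubring (AlgebraicClosure ℚ)) (hA : A.LiesOverPrime ℓ)
    (h : ModularCurve.ReductionInputsModL A N) (m : ℕ) (hm : ¬ ℓ ∣ m) (z : ModularCurve.JZero N)
    (hmz : m • z = 0) (hz : ModularCurve.reductionModL A N z = 0) :
    z = 0 := by
  classical
  -- notation
  set r := placeReductionModL h with hr_def
  have hr : IsPlaceReductionAlong A (IsLocalRing.residue A) N r :=
    isPlaceReductionModL_placeReductionModL h
  have hgen : PrincipalGeneratedByIntegral A (IsLocalRing.residue A) N := h.choose_spec.2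
  have hdiv := FbarFacts20.hasPrincipalDivisors_bar N
  have hdeg1 := FbarFacts20.deg_eq_one_bar N
  have hne := FbarFacts20.nonempty_place_bar N
  -- `z = [D₀]`
  obtain ⟨⟨D₀, hD₀⟩, rfl⟩ := Pic0.mk_surjective z
  -- `m • D₀` is principal
  have hmD₀ : m • D₀ ∈ Divisor.principal (K := Qbar) (F := Fbar) := by
    have h1 : Pic0.mk (m • (⟨D₀, hD₀⟩ : Divisor.degZero (K := Qbar) (F := Fbar))) = 0 := by
      rw [← hmz]; rfl
    have h2 := (QuotientAddGroup.eq_zero_iff _).mp h1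
    rw [AddSubgroup.mem_addSubgroupOf] at h2
    simpa using h2
  -- `r_* D₀` is principal
  have hrD₀ : Finsupp.mapDomain r D₀ ∈
      Divisor.principal (K := IsLocalRing.ResidueField A)
        (F := modularFunctionFieldFullC (IsLocalRing.ResidueField A) N) := by
    rw [reductionModL_mk h] at hz
    have h2 := (QuotientAddGroup.eq_zero_iff _).mp hz
    rw [AddSubgroup.mem_addSubgroupOf] at h2
    exact h2
  -- integral representation of `m • D₀`
  obtain ⟨Y₁, Y₂, hY₁, hY₂, hYk₁, hYk₂, hY0₁, hY0₂, hYord⟩ :=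
    goodRep_of_mem_closure (hgen hmD₀)
  -- `g~` with `div g~ = r_* D₀`, and its lift
  obtain ⟨g, hg0, hgord⟩ := hrD₀
  obtain ⟨G₁, G₂, hG₁, hG₂, hGk₁, hGk₂, hG0₁, hG0₂, hgG⟩ :=
    LiftRatio2.exists_lift_ratio_modL A N (g : LaurentSeries (IsLocalRing.ResidueField A)) g.2
      (fun h0 => hg0 (Subtype.ext h0))
  obtain ⟨DG₁, hDG₁, -⟩ := hdiv.exists_divisor _ (bar_ne_zero hG₁ hG0₁)
  obtain ⟨DG₂, hDG₂, -⟩ := hdiv.exists_divisor _ (bar_ne_zero hG₂ hG0₂)
  -- the new divisor and functions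
  set D : Divisor Qbar Fbar := D₀ - (DG₁ - DG₂) with hD
  have hP : coeffMap A.subtype (Y₁ * G₂ ^ m) ∈ Fbar := by
    rw [map_mul]; exact mul_mem hY₁ (pow_mem_bar N hG₂ m)
  have hQ : coeffMap A.subtype (Y₂ * G₁ ^ m) ∈ Fbar := by
    rw [map_mul]; exact mul_mem hY₂ (pow_mem_bar N hG₁ m)
  have hPk : coeffMap (IsLocalRing.residue A) (Y₁ * G₂ ^ m) ∈
      modularFunctionFieldFullC (IsLocalRing.ResidueField A) N := by
    rw [map_mul, map_pow]; exact mul_mem hYk₁ (pow_mem hGk₂ m)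
  have hQk : coeffMap (IsLocalRing.residue A) (Y₂ * G₁ ^ m) ∈
      modularFunctionFieldFullC (IsLocalRing.ResidueField A) N := by
    rw [map_mul, map_pow]; exact mul_mem hYk₂ (pow_mem hGk₁ m)
  have hP0 : coeffMap (IsLocalRing.residue A) (Y₁ * G₂ ^ m) ≠ 0 := by
    rw [map_mul, map_pow]; exact mul_ne_zero hY0₁ (pow_ne_zero m hG0₂)
  have hQ0 : coeffMap (IsLocalRing.residue A) (Y₂ * G₁ ^ m) ≠ 0 := by
    rw [map_mul, map_pow]; exact mul_ne_zero hY0₂ (pow_ne_zero m hG0₁)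
  have hGm0₁ : coeffMap (IsLocalRing.residue A) (G₁ ^ m) ≠ 0 := by
    rw [map_pow]; exact pow_ne_zero m hG0₁
  have hGm0₂ : coeffMap (IsLocalRing.residue A) (G₂ ^ m) ≠ 0 := by
    rw [map_pow]; exact pow_ne_zero m hG0₂
  -- orders upstairs: `m·D = div P - div Q`
  have hDord : ∀ w : Place Qbar Fbar, (m : ℤ) * D w =
      w.ord (⟨_, hP⟩ : Fbar) - w.ord (⟨_, hQ⟩ : Fbar) := by
    intro w
    rw [ord_bar_mul w hY₁ (pow_mem_bar N hG₂ m) hP hY0₁ hGm0₂,
      ord_bar_mul w hY₂ (pow_mem_bar N hG₁ m) hQ hY0₂ hGm0₁,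
      ord_bar_pow N w hG₂ m, ord_bar_pow N w hG₁ m, hD, Finsupp.sub_apply, Finsupp.sub_apply,
      hDG₁ w, hDG₂ w]
    have := hYord w
    rw [Finsupp.smul_apply, nsmul_eq_mul] at this
    linarith
  -- divisors of `P`, `Q` upstairs and their push-forwards
  obtain ⟨DP, hDP, -⟩ := hdiv.exists_divisor _ (bar_ne_zero hP hP0)
  obtain ⟨DQ, hDQ, -⟩ := hdiv.exists_divisor _ (bar_ne_zero hQ hQ0)
  have hDPQ : DP - DQ = m • D := by
    ext w
    rw [Finsupp.sub_apply, Finsupp.smul_apply, nsmul_eq_mul, hDP w, hDQ w, hDord w]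
  have hrP := hr.2 _ hP hPk hP0 DP hDP
  have hrQ := hr.2 _ hQ hQk hQ0 DQ hDQ
  have hrG₁ := hr.2 _ hG₁ hGk₁ hG0₁ DG₁ hDG₁
  have hrG₂ := hr.2 _ hG₂ hGk₂ hG0₂ DG₂ hDG₂
  -- `g = G₁~/G₂~` in `F~`
  have hgF : g = (⟨_, hGk₁⟩ : modularFunctionFieldFullC (IsLocalRing.ResidueField A) N) /
      ⟨_, hGk₂⟩ := Subtype.ext hgG
  have hGk0₁ : (⟨_, hGk₁⟩ : modularFunctionFieldFullC (IsLocalRing.ResidueField A) N) ≠ 0 :=
    fun h0 => hG0₁ (congrArg Subtype.val h0)
  have hGk0₂ : (⟨_, hGk₂⟩ : modularFunctionFieldFullC (IsLocalRing.ResidueField A) N) ≠ 0 :=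
    fun h0 => hG0₂ (congrArg Subtype.val h0)
  -- `r_* D = 0`
  have hrD : ∀ Q' : Place (IsLocalRing.ResidueField A)
      (modularFunctionFieldFullC (IsLocalRing.ResidueField A) N),
      Finsupp.mapDomain r D Q' = 0 := by
    intro Q'
    rw [hD, Finsupp.mapDomain_sub, Finsupp.mapDomain_sub, Finsupp.sub_apply, Finsupp.sub_apply,
      hgord Q', hrG₁ Q', hrG₂ Q', hgF, div_eq_mul_inv, Q'.ord_mul hGk0₁ (inv_ne_zero hGk0₂),
      Q'.ord_inv]
    ring
  -- hence `P~`, `Q~` have the same orders everywhere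
  have hordPQ : ∀ Q' : Place (IsLocalRing.ResidueField A)
      (modularFunctionFieldFullC (IsLocalRing.ResidueField A) N),
      Q'.ord (⟨_, hPk⟩ : modularFunctionFieldFullC (IsLocalRing.ResidueField A) N) =
        Q'.ord (⟨_, hQk⟩ : modularFunctionFieldFullC (IsLocalRing.ResidueField A) N) := by
    intro Q'
    have h1 : Finsupp.mapDomain r (DP - DQ) Q' = 0 := by
      rw [hDPQ, Finsupp.mapDomain_smul, Finsupp.smul_apply, hrD Q', smul_zero]
    rw [Finsupp.mapDomain_sub, Finsupp.sub_apply, hrP Q', hrQ Q'] at h1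
    linarith
  -- constant
  obtain ⟨c, hc⟩ := exists_const_of_ord_eq IsLocalRing.residue_surjective hdiv hdeg1 hne hr
    (Y₁ * G₂ ^ m) (Y₂ * G₁ ^ m) hP hQ hPk hQk hQ0 hordPQ
  -- `c ≠ 0`
  have hc0 : (c : Qbar) ≠ 0 := by
    intro h0
    have : c = 0 := Subtype.ext h0
    rw [this, map_zero, zero_mul, map_zero] at hc
    exact hP0 hc
  -- apply (CL) to `P` and `c Q`
  have hQ' : coeffMap A.subtype (HahnSeries.C c * (Y₂ * G₁ ^ m)) ∈ Fbar := by
    rw [map_mul, coeffMap_C]; exact mul_mem (C_mem_bar _) hQ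
  have hQ'k : coeffMap (IsLocalRing.residue A) (HahnSeries.C c * (Y₂ * G₁ ^ m)) ∈
      modularFunctionFieldFullC (IsLocalRing.ResidueField A) N := by
    rw [← hc]; exact hPk
  have hQ'0 : coeffMap (IsLocalRing.residue A) (HahnSeries.C c * (Y₂ * G₁ ^ m)) ≠ 0 := by
    rw [← hc]; exact hP0
  have hDprin : D ∈ Divisor.principal (K := Qbar) (F := Fbar) := by
    refine hCL A hA (Y₁ * G₂ ^ m) (HahnSeries.C c * (Y₂ * G₁ ^ m)) hP hQ' hc hQ'0 hQ'k m hm D ?_
    intro w
    have hQ'eq : (⟨_, hQ'⟩ : Fbar) = algebraMap Qbar Fbar (c : Qbar) * (⟨_, hQ⟩ : Fbar) := by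
      apply Subtype.ext
      show coeffMap A.subtype (HahnSeries.C c * (Y₂ * G₁ ^ m)) =
        algebraMap Qbar (LaurentSeries Qbar) (c : Qbar) * coeffMap A.subtype (Y₂ * G₁ ^ m)
      rw [map_mul, coeffMap_C, algebraMap_laurentSeries_eq_single, HahnSeries.C_apply]
      rfl
    have hcF : algebraMap Qbar Fbar (c : Qbar) ≠ 0 := by
      rw [Ne, map_eq_zero_iff _ (algebraMap Qbar Fbar).injective]
      exact hc0
    rw [hDord w, div_eq_mul_inv, w.ord_mul (bar_ne_zero hP hP0)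
      (inv_ne_zero (hQ'eq ▸ mul_ne_zero hcF (bar_ne_zero hQ hQ0))), w.ord_inv, hQ'eq,
      w.ord_mul hcF (bar_ne_zero hQ hQ0), ffp_ord_algebraMap]
    ring
  -- conclude
  have hD₀prin : D₀ ∈ Divisor.principal (K := Qbar) (F := Fbar) := by
    have h1 : D₀ = D + (DG₁ - DG₂) := by rw [hD]; abel
    rw [h1]
    refine AddSubgroup.add_mem _ hDprin (AddSubgroup.sub_mem _ ?_ ?_)
    · exact ⟨_, bar_ne_zero hG₁ hG0₁, hDG₁⟩
    · exact ⟨_, bar_ne_zero hG₂ hG0₂, hDG₂⟩
  show Pic0.mk (⟨D₀, hD₀⟩ : Divisor.degZero (K := Qbar) (F := Fbar)) = 0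
  rw [Pic0.mk, QuotientAddGroup.eq_zero_iff, AddSubgroup.mem_addSubgroupOf]
  exact hD₀prin

/-! ### Variants of the contract (any of them suffices) -/

/-- Blueprint shape verbatim (no membership hypothesis on the reduction): stronger than `CL`. -/
def CLStrong (N ℓ : ℕ) : Prop :=
  ∀ (A : ValuationSubring (AlgebraicClosure ℚ)), A.LiesOverPrime ℓ →
  ∀ (P Q : LaurentSeries A) (hP : coeffMap A.subtype P ∈ modularFunctionFieldBar N)
    (hQ : coeffMap A.subtype Q ∈ modularFunctionFieldBar N),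
    coeffMap (IsLocalRing.residue A) P = coeffMap (IsLocalRing.residue A) Q →
    coeffMap (IsLocalRing.residue A) Q ≠ 0 →
  ∀ (m : ℕ), ¬ ℓ ∣ m → ∀ D : Divisor (AlgebraicClosure ℚ) (modularFunctionFieldBar N),
    (∀ w : Place (AlgebraicClosure ℚ) (modularFunctionFieldBar N),
      (m : ℤ) * D w = w.ord ((⟨_, hP⟩ : modularFunctionFieldBar N) / ⟨_, hQ⟩)) →
    D ∈ Divisor.principal (K := AlgebraicClosure ℚ) (F := modularFunctionFieldBar N)

theorem cl_of_clStrong {N ℓ : ℕ} (h : CLStrong N ℓ) : CL N ℓ :=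
  fun A hA P Q hP hQ hPQ hQ0 _ m hm D hD => h A hA P Q hP hQ hPQ hQ0 m hm D hD

/-- Difference-of-orders shape (with the membership hypothesis). -/
def CLSub (N ℓ : ℕ) : Prop :=
  ∀ (A : ValuationSubring (AlgebraicClosure ℚ)), A.LiesOverPrime ℓ →
  ∀ (P Q : LaurentSeries A) (hP : coeffMap A.subtype P ∈ modularFunctionFieldBar N)
    (hQ : coeffMap A.subtype Q ∈ modularFunctionFieldBar N),
    coeffMap (IsLocalRing.residue A) P = coeffMap (IsLocalRing.residue A) Q →
    coeffMap (IsLocalRing.residue A) Q ≠ 0 →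
    coeffMap (IsLocalRing.residue A) Q ∈ modularFunctionFieldFullC (IsLocalRing.ResidueField A) N →
  ∀ (m : ℕ), ¬ ℓ ∣ m → ∀ D : Divisor (AlgebraicClosure ℚ) (modularFunctionFieldBar N),
    (∀ w : Place (AlgebraicClosure ℚ) (modularFunctionFieldBar N),
      (m : ℤ) * D w = w.ord (⟨_, hP⟩ : modularFunctionFieldBar N) -
        w.ord (⟨_, hQ⟩ : modularFunctionFieldBar N)) →
    D ∈ Divisor.principal (K := AlgebraicClosure ℚ) (F := modularFunctionFieldBar N)

theorem cl_of_clSub {N ℓ : ℕ} (h : CLSub N ℓ) : CL N ℓ := by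
  intro A hA P Q hP hQ hPQ hQ0 hQk m hm D hD
  refine h A hA P Q hP hQ hPQ hQ0 hQk m hm D ?_
  intro w
  have hP0 : coeffMap (IsLocalRing.residue A) P ≠ 0 := hPQ ▸ hQ0
  rw [hD w, div_eq_mul_inv, w.ord_mul (bar_ne_zero hP hP0) (inv_ne_zero (bar_ne_zero hQ hQ0)),
    w.ord_inv]
  ring

end Main

end Fermat.Agent.RED.TOP.S18Top20
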