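/-
Program H (S18), chapter RED/TOP, helper20: step (0) PER VALUATION RING.  Same proof as
`S18Top20.s18_of_CL`, but the core lemma is only required for the valuation subring `A` at hand
(`CLAt N ℓ A`), in divisor form or in FIELD form (`CLFieldAt`, helper4's ruling #1: the chain
`S18 ⇐ CLBar ℓ N A ⇐ …` carries `A` as a parameter).
-/
import Mathlib
import Fermat.Agent.RED.TOP.S18Top20
import Fermat.Agent.RED.Interface4

set_option autoImplicit false
set_option synthInstance.maxHeartbeats 400000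
set_option linter.unusedSectionVars false

noncomputable section

open HahnSeries IntermediateField AlgebraicCurve ModularCurve

namespace Fermat.Agent.RED.TOP.S18TopAt20

open Fermat.Agent.X0.FF Fermat.Agent.RED.TOP.ConstViaR20 Fermat.Agent.RED.TOP.S18Top20

/-- The core lemma for ONE valuation subring `A`, divisor form. -/
def CLAt (N ℓ : ℕ) (A : ValuationSubring (AlgebraicClosure ℚ)) : Prop :=
  ∀ (P Q : LaurentSeries A) (hP : coeffMap A.subtype P ∈ modularFunctionFieldBar N)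
    (hQ : coeffMap A.subtype Q ∈ modularFunctionFieldBar N),
    coeffMap (IsLocalRing.residue A) P = coeffMap (IsLocalRing.residue A) Q →
    coeffMap (IsLocalRing.residue A) Q ≠ 0 →
    coeffMap (IsLocalRing.residue A) Q ∈ modularFunctionFieldFullC (IsLocalRing.ResidueField A) N →
  ∀ (m : ℕ), ¬ ℓ ∣ m → ∀ D : Divisor (AlgebraicClosure ℚ) (modularFunctionFieldBar N),
    (∀ w : Place (AlgebraicClosure ℚ) (modularFunctionFieldBar N),
      (m : ℤ) * D w = w.ord ((⟨_, hP⟩ : modularFunctionFieldBar N) / ⟨_, hQ⟩)) →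
    D ∈ Divisor.principal (K := AlgebraicClosure ℚ) (F := modularFunctionFieldBar N)

/-- The core lemma for ONE valuation subring `A`, FIELD form (no divisors). -/
def CLFieldAt (N ℓ : ℕ) (A : ValuationSubring (AlgebraicClosure ℚ)) : Prop :=
  ∀ (P Q : LaurentSeries A) (hP : coeffMap A.subtype P ∈ modularFunctionFieldBar N)
    (hQ : coeffMap A.subtype Q ∈ modularFunctionFieldBar N),
    coeffMap (IsLocalRing.residue A) P = coeffMap (IsLocalRing.residue A) Q →
    coeffMap (IsLocalRing.residue A) Q ≠ 0 →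
    coeffMap (IsLocalRing.residue A) Q ∈ modularFunctionFieldFullC (IsLocalRing.ResidueField A) N →
  ∀ (m : ℕ), ¬ ℓ ∣ m →
    (∀ v : Place (AlgebraicClosure ℚ) (modularFunctionFieldBar N),
      (m : ℤ) ∣ v.ord (⟨_, hP⟩ : modularFunctionFieldBar N) -
        v.ord (⟨_, hQ⟩ : modularFunctionFieldBar N)) →
    ∃ s : modularFunctionFieldBar N,
      s ^ m * (⟨_, hQ⟩ : modularFunctionFieldBar N) = (⟨_, hP⟩ : modularFunctionFieldBar N)

theorem clAt_of_clFieldAt {N ℓ : ℕ} {A : ValuationSubring (AlgebraicClosure ℚ)}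
    (h : CLFieldAt N ℓ A) : CLAt N ℓ A := by
  intro P Q hP hQ hPQ hQ0 hQk m hm D hD
  have hm0 : m ≠ 0 := fun h0 => hm (h0 ▸ dvd_zero ℓ)
  have hP0 : coeffMap (IsLocalRing.residue A) P ≠ 0 := hPQ ▸ hQ0
  have hPne := bar_ne_zero hP hP0
  have hQne := bar_ne_zero hQ hQ0
  have hsub : ∀ w : Place (AlgebraicClosure ℚ) (modularFunctionFieldBar N),
      w.ord ((⟨_, hP⟩ : modularFunctionFieldBar N) / ⟨_, hQ⟩) =
        w.ord (⟨_, hP⟩ : modularFunctionFieldBar N) -
          w.ord (⟨_, hQ⟩ : modularFunctionFieldBar N) := by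
    intro w
    rw [div_eq_mul_inv, w.ord_mul hPne (inv_ne_zero hQne), w.ord_inv]
    ring
  obtain ⟨s, hs⟩ := h P Q hP hQ hPQ hQ0 hQk m hm (fun v => ⟨D v, by rw [← hsub v, hD v]⟩)
  have hs0 : s ≠ 0 := by
    rintro rfl
    rw [zero_pow hm0, zero_mul] at hs
    exact hPne hs.symm
  refine ⟨s, hs0, fun w => ?_⟩
  have h1 : (m : ℤ) * D w = (m : ℤ) * w.ord s := by
    rw [hD w, hsub w, ← hs, w.ord_mul (pow_ne_zero m hs0) hQne]
    have : w.ord (s ^ m) = (m : ℤ) * w.ord s := by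
      rw [← zpow_natCast, w.ord_zpow]
    rw [this]
    ring
  exact mul_left_cancel₀ (by exact_mod_cast hm0) h1

section Main

variable (N : ℕ) [NeZero N]

local notation "Qbar" => AlgebraicClosure ℚ
local notation "Fbar" => modularFunctionFieldBar N

/-- **S18 from (CL) at the given `A`.** -/
theorem s18_of_CLAt {ℓ : ℕ} [Fact ℓ.Prime]
    (A : ValuationSubring (AlgebraicClosure ℚ)) (hCL : CLAt N ℓ A)
    (h : ModularCurve.ReductionInputsModL A N) (m : ℕ) (hm : ¬ ℓ ∣ m) (z : ModularCurve.JZero N)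
    (hmz : m • z = 0) (hz : ModularCurve.reductionModL A N z = 0) :
    z = 0 := by
  classical
  -- notation
  set r := placeReductionModL h with hr_def
  have hr : IsPlaceReductionAlong A (IsLocalRing.residue A) N r :=
    isPlaceReductionModL_placeReductionModL h
  have hgen : PrincipalGeneratedByIntegral A (IsLocalRing.residue A) N := h.choose_spec.2
  have hdiv := FbarFacts20.hasPrincipalDivisors_bar N
  have hdeg1 := FbarFacts20.deg_eq_one_bar N
  have hne := FbarFacts20.nonempty_place_bar N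
  -- `z = [D₀]`
  obtain ⟨⟨D₀, hD₀⟩, rfl⟩ := Pic0.mk_surjective z
  -- `m • D₀` is principal
  have hmD₀ : m • D₀ ∈ Divisor.principal (K := Qbar) (F := Fbar) := by
    have h1 : Pic0.mk (m • (⟨D₀, hD₀⟩ : Divisor.degZero (K := Qbar) (F := Fbar))) = 0 := by
      rw [← hmz]; rfl
    have h2 := (QuotientAddGroup.eq_zero_iff _).mp h1
    rw [AddSubgroup.mem_addSubgroupOf] at h2
    simpa using h2
  -- `r_* D₀` is principal
  have hrD₀ : Finsupp.mapDomain r D₀ ∈
      Divisor.principal (K := IsLocalRing.ResidueField A)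
        (F := modularFunctionFieldFullC (IsLocalRing.ResidueField A) N) := by
    rw [reductionModL_mk h] at hz
    have h2 := (QuotientAddGroup.eq_zero_iff _).mp hz
    rw [AddSubgroup.mem_addSubgroupOf] at h2
    exact h2
  -- integral representation of `m • D₀`
  obtain ⟨Y₁, Y₂, hY₁, hY₂, hYk₁, hYk₂, hY0₁, hY0₂, hYord⟩ :=
    goodRep_of_mem_closure (hgen hmD₀)
  -- `g~` with `div g~ = r_* D₀`, and its lift
  obtain ⟨g, hg0, hgord⟩ := hrD₀
  obtain ⟨G₁, G₂, hG₁, hG₂, hGk₁, hGk₂, hG0₁, hG0₂, hgG⟩ :=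
    LiftRatio2.exists_lift_ratio_modL A N (g : LaurentSeries (IsLocalRing.ResidueField A)) g.2
      (fun h0 => hg0 (Subtype.ext h0))
  obtain ⟨DG₁, hDG₁, -⟩ := hdiv.exists_divisor _ (bar_ne_zero hG₁ hG0₁)
  obtain ⟨DG₂, hDG₂, -⟩ := hdiv.exists_divisor _ (bar_ne_zero hG₂ hG0₂)
  -- the new divisor and functions
  set D : Divisor Qbar Fbar := D₀ - (DG₁ - DG₂) with hD
  have hP : coeffMap A.subtype (Y₁ * G₂ ^ m) ∈ Fbar := by
    rw [map_mul]; exact mul_mem hY₁ (pow_mem_bar N hG₂ m)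
  have hQ : coeffMap A.subtype (Y₂ * G₁ ^ m) ∈ Fbar := by
    rw [map_mul]; exact mul_mem hY₂ (pow_mem_bar N hG₁ m)
  have hPk : coeffMap (IsLocalRing.residue A) (Y₁ * G₂ ^ m) ∈
      modularFunctionFieldFullC (IsLocalRing.ResidueField A) N := by
    rw [map_mul, map_pow]; exact mul_mem hYk₁ (pow_mem hGk₂ m)
  have hQk : coeffMap (IsLocalRing.residue A) (Y₂ * G₁ ^ m) ∈
      modularFunctionFieldFullC (IsLocalRing.ResidueField A) N := by
    rw [map_mul, map_pow]; exact mul_mem hYk₂ (pow_mem hGk₁ m)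
  have hP0 : coeffMap (IsLocalRing.residue A) (Y₁ * G₂ ^ m) ≠ 0 := by
    rw [map_mul, map_pow]; exact mul_ne_zero hY0₁ (pow_ne_zero m hG0₂)
  have hQ0 : coeffMap (IsLocalRing.residue A) (Y₂ * G₁ ^ m) ≠ 0 := by
    rw [map_mul, map_pow]; exact mul_ne_zero hY0₂ (pow_ne_zero m hG0₁)
  have hGm0₁ : coeffMap (IsLocalRing.residue A) (G₁ ^ m) ≠ 0 := by
    rw [map_pow]; exact pow_ne_zero m hG0₁
  have hGm0₂ : coeffMap (IsLocalRing.residue A) (G₂ ^ m) ≠ 0 := by
    rw [map_pow]; exact pow_ne_zero m hG0₂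
  -- orders upstairs: `m·D = div P - div Q`
  have hDord : ∀ w : Place Qbar Fbar, (m : ℤ) * D w =
      w.ord (⟨_, hP⟩ : Fbar) - w.ord (⟨_, hQ⟩ : Fbar) := by
    intro w
    rw [ord_bar_mul w hY₁ (pow_mem_bar N hG₂ m) hP hY0₁ hGm0₂,
      ord_bar_mul w hY₂ (pow_mem_bar N hG₁ m) hQ hY0₂ hGm0₁,
      ord_bar_pow N w hG₂ m, ord_bar_pow N w hG₁ m, hD, Finsupp.sub_apply, Finsupp.sub_apply,
      hDG₁ w, hDG₂ w]
    have := hYord w
    rw [Finsupp.smul_apply, nsmul_eq_mul] at this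
    linarith
  -- divisors of `P`, `Q` upstairs and their push-forwards
  obtain ⟨DP, hDP, -⟩ := hdiv.exists_divisor _ (bar_ne_zero hP hP0)
  obtain ⟨DQ, hDQ, -⟩ := hdiv.exists_divisor _ (bar_ne_zero hQ hQ0)
  have hDPQ : DP - DQ = m • D := by
    ext w
    rw [Finsupp.sub_apply, Finsupp.smul_apply, nsmul_eq_mul, hDP w, hDQ w, hDord w]
  have hrP := hr.2 _ hP hPk hP0 DP hDP
  have hrQ := hr.2 _ hQ hQk hQ0 DQ hDQ
  have hrG₁ := hr.2 _ hG₁ hGk₁ hG0₁ DG₁ hDG₁
  have hrG₂ := hr.2 _ hG₂ hGk₂ hG0₂ DG₂ hDG₂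
  -- `g = G₁~/G₂~` in `F~`
  have hgF : g = (⟨_, hGk₁⟩ : modularFunctionFieldFullC (IsLocalRing.ResidueField A) N) /
      ⟨_, hGk₂⟩ := Subtype.ext hgG
  have hGk0₁ : (⟨_, hGk₁⟩ : modularFunctionFieldFullC (IsLocalRing.ResidueField A) N) ≠ 0 :=
    fun h0 => hG0₁ (congrArg Subtype.val h0)
  have hGk0₂ : (⟨_, hGk₂⟩ : modularFunctionFieldFullC (IsLocalRing.ResidueField A) N) ≠ 0 :=
    fun h0 => hG0₂ (congrArg Subtype.val h0)
  -- `r_* D = 0`
  have hrD : ∀ Q' : Place (IsLocalRing.ResidueField A)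
      (modularFunctionFieldFullC (IsLocalRing.ResidueField A) N),
      Finsupp.mapDomain r D Q' = 0 := by
    intro Q'
    rw [hD, Finsupp.mapDomain_sub, Finsupp.mapDomain_sub, Finsupp.sub_apply, Finsupp.sub_apply,
      hgord Q', hrG₁ Q', hrG₂ Q', hgF, div_eq_mul_inv, Q'.ord_mul hGk0₁ (inv_ne_zero hGk0₂),
      Q'.ord_inv]
    ring
  -- hence `P~`, `Q~` have the same orders everywhere
  have hordPQ : ∀ Q' : Place (IsLocalRing.ResidueField A)
      (modularFunctionFieldFullC (IsLocalRing.ResidueField A) N),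
      Q'.ord (⟨_, hPk⟩ : modularFunctionFieldFullC (IsLocalRing.ResidueField A) N) =
        Q'.ord (⟨_, hQk⟩ : modularFunctionFieldFullC (IsLocalRing.ResidueField A) N) := by
    intro Q'
    have h1 : Finsupp.mapDomain r (DP - DQ) Q' = 0 := by
      rw [hDPQ, Finsupp.mapDomain_smul, Finsupp.smul_apply, hrD Q', smul_zero]
    rw [Finsupp.mapDomain_sub, Finsupp.sub_apply, hrP Q', hrQ Q'] at h1
    linarith
  -- constant
  obtain ⟨c, hc⟩ := exists_const_of_ord_eq IsLocalRing.residue_surjective hdiv hdeg1 hne hr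
    (Y₁ * G₂ ^ m) (Y₂ * G₁ ^ m) hP hQ hPk hQk hQ0 hordPQ
  -- `c ≠ 0`
  have hc0 : (c : Qbar) ≠ 0 := by
    intro h0
    have : c = 0 := Subtype.ext h0
    rw [this, map_zero, zero_mul, map_zero] at hc
    exact hP0 hc
  -- apply (CL) to `P` and `c Q`
  have hQ' : coeffMap A.subtype (HahnSeries.C c * (Y₂ * G₁ ^ m)) ∈ Fbar := by
    rw [map_mul, coeffMap_C]; exact mul_mem (C_mem_bar _) hQ
  have hQ'k : coeffMap (IsLocalRing.residue A) (HahnSeries.C c * (Y₂ * G₁ ^ m)) ∈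
      modularFunctionFieldFullC (IsLocalRing.ResidueField A) N := by
    rw [← hc]; exact hPk
  have hQ'0 : coeffMap (IsLocalRing.residue A) (HahnSeries.C c * (Y₂ * G₁ ^ m)) ≠ 0 := by
    rw [← hc]; exact hP0
  have hDprin : D ∈ Divisor.principal (K := Qbar) (F := Fbar) := by
    refine hCL (Y₁ * G₂ ^ m) (HahnSeries.C c * (Y₂ * G₁ ^ m)) hP hQ' hc hQ'0 hQ'k m hm D ?_
    intro w
    have hQ'eq : (⟨_, hQ'⟩ : Fbar) = algebraMap Qbar Fbar (c : Qbar) * (⟨_, hQ⟩ : Fbar) := by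
      apply Subtype.ext
      show coeffMap A.subtype (HahnSeries.C c * (Y₂ * G₁ ^ m)) =
        algebraMap Qbar (LaurentSeries Qbar) (c : Qbar) * coeffMap A.subtype (Y₂ * G₁ ^ m)
      rw [map_mul, coeffMap_C, algebraMap_laurentSeries_eq_single, HahnSeries.C_apply]
      rfl
    have hcF : algebraMap Qbar Fbar (c : Qbar) ≠ 0 := by
      rw [Ne, map_eq_zero_iff _ (algebraMap Qbar Fbar).injective]
      exact hc0
    rw [hDord w, div_eq_mul_inv, w.ord_mul (bar_ne_zero hP hP0)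
      (inv_ne_zero (hQ'eq ▸ mul_ne_zero hcF (bar_ne_zero hQ hQ0))), w.ord_inv, hQ'eq,
      w.ord_mul hcF (bar_ne_zero hQ hQ0), ffp_ord_algebraMap]
    ring
  -- conclude
  have hD₀prin : D₀ ∈ Divisor.principal (K := Qbar) (F := Fbar) := by
    have h1 : D₀ = D + (DG₁ - DG₂) := by rw [hD]; abel
    rw [h1]
    refine AddSubgroup.add_mem _ hDprin (AddSubgroup.sub_mem _ ?_ ?_)
    · exact ⟨_, bar_ne_zero hG₁ hG0₁, hDG₁⟩
    · exact ⟨_, bar_ne_zero hG₂ hG0₂, hDG₂⟩
  show Pic0.mk (⟨D₀, hD₀⟩ : Divisor.degZero (K := Qbar) (F := Fbar)) = 0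
  rw [Pic0.mk, QuotientAddGroup.eq_zero_iff, AddSubgroup.mem_addSubgroupOf]
  exact hD₀prin


/-- **S18 from the FIELD form of (CL) at the given `A`.** -/
theorem s18_of_CLFieldAt {ℓ : ℕ} [Fact ℓ.Prime]
    (A : ValuationSubring (AlgebraicClosure ℚ)) (hCL : CLFieldAt N ℓ A)
    (h : ModularCurve.ReductionInputsModL A N) (m : ℕ) (hm : ¬ ℓ ∣ m) (z : ModularCurve.JZero N)
    (hmz : m • z = 0) (hz : ModularCurve.reductionModL A N z = 0) :
    z = 0 :=
  s18_of_CLAt N A (clAt_of_clFieldAt hCL) h m hm z hmz hz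

/-- helper4's contract `Interface4.CLBar` implies the FIELD form used here. -/
theorem clFieldAt_of_clBar {ℓ : ℕ} {A : ValuationSubring (AlgebraicClosure ℚ)}
    (h : Fermat.Agent.RED.Interface4.CLBar ℓ N A) : CLFieldAt N ℓ A :=
  fun P Q hP hQ hPQ hQ0 _ m hm hdvd => h P Q hP hQ hPQ (hPQ ▸ hQ0) m hm hdvd

/-- **TOP, final form: the frozen S18 from `Interface4.CLBar ℓ N A`** (chain of helper4's ruling #1). -/
theorem s18_of_CLBar {ℓ : ℕ} [Fact ℓ.Prime]
    (A : ValuationSubring (AlgebraicClosure ℚ)) (hCL : Fermat.Agent.RED.Interface4.CLBar ℓ N A)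
    (h : ModularCurve.ReductionInputsModL A N) (m : ℕ) (hm : ¬ ℓ ∣ m) (z : ModularCurve.JZero N)
    (hmz : m • z = 0) (hz : ModularCurve.reductionModL A N z = 0) :
    z = 0 :=
  s18_of_CLFieldAt N A (clFieldAt_of_clBar N hCL) h m hm z hmz hz

end Main

end Fermat.Agent.RED.TOP.S18TopAt20
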